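/-
S23 / P8 (helper40): function-level `q`-expansion calculus.

`QGood φ` : `φ : ℍ → ℂ` is `1`-periodic, holomorphic and bounded at `i∞`.  On such functions
`qExpansion 1` is additive, multiplicative and injective, with no weight bookkeeping.
-/
import Mathlib.NumberTheory.ModularForms.QExpansion
import Mathlib.NumberTheory.ModularForms.CongruenceSubgroups

set_option autoImplicit false

namespace Fermat.Agent.S23.H40

open UpperHalfPlane Function
open scoped Manifold MatrixGroups

/-- `φ` is `1`-periodic, holomorphic on `ℍ` and bounded at `i∞`. -/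
structure QGood (φ : ℍ → ℂ) : Prop where
  per : Periodic (φ ∘ ofComplex) 1
  holo : MDiff φ
  bdd : IsBoundedAtImInfty φ

namespace QGood

variable {φ ψ : ℍ → ℂ}

theorem analyticAt (hφ : QGood φ) : AnalyticAt ℂ (cuspFunction 1 φ) 0 :=
  analyticAt_cuspFunction_zero one_pos (by simpa using hφ.per) hφ.holo hφ.bdd

theorem const (c : ℂ) : QGood (fun _ : ℍ => c) where
  per := fun _ => rfl
  holo := mdifferentiable_const
  bdd := Filter.const_boundedAtFilter atImInfty c

theorem zero : QGood (0 : ℍ → ℂ) := const 0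

theorem one : QGood (1 : ℍ → ℂ) := const 1

theorem add (hφ : QGood φ) (hψ : QGood ψ) : QGood (φ + ψ) where
  per := fun x => by
    have h1 := hφ.per x
    have h2 := hψ.per x
    simp only [comp_apply, Pi.add_apply] at h1 h2 ⊢
    rw [h1, h2]
  holo := hφ.holo.add hψ.holo
  bdd := hφ.bdd.add hψ.bdd

theorem mul (hφ : QGood φ) (hψ : QGood ψ) : QGood (φ * ψ) where
  per := fun x => by
    have h1 := hφ.per x
    have h2 := hψ.per x
    simp only [comp_apply, Pi.mul_apply] at h1 h2 ⊢
    rw [h1, h2]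
  holo := hφ.holo.mul hψ.holo
  bdd := hφ.bdd.mul hψ.bdd

theorem neg (hφ : QGood φ) : QGood (-φ) := by
  have := (const (-1)).mul hφ
  convert this using 1
  ext z
  simp

theorem sub (hφ : QGood φ) (hψ : QGood ψ) : QGood (φ - ψ) := by
  rw [sub_eq_add_neg]
  exact hφ.add hψ.neg

theorem smul (c : ℂ) (hφ : QGood φ) : QGood (c • φ) := by
  have := (const c).mul hφ
  convert this using 1
  ext z
  simp

theorem pow (hφ : QGood φ) (n : ℕ) : QGood (φ ^ n) := by
  induction n with
  | zero => simpa using one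
  | succ n ih => rw [pow_succ]; exact ih.mul hφ

theorem sum {ι : Type*} (s : Finset ι) (F : ι → ℍ → ℂ) (h : ∀ i ∈ s, QGood (F i)) :
    QGood (∑ i ∈ s, F i) := by
  classical
  induction s using Finset.induction_on with
  | empty => simpa using zero
  | insert a s ha ih =>
    rw [Finset.sum_insert ha]
    exact (h a (Finset.mem_insert_self a s)).add
      (ih fun i hi => h i (Finset.mem_insert_of_mem hi))

end QGood

/-! ### `qExpansion 1` on good functions -/

section qExp

variable {φ ψ : ℍ → ℂ}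

theorem qExp_add (hφ : QGood φ) (hψ : QGood ψ) :
    qExpansion 1 (φ + ψ) = qExpansion 1 φ + qExpansion 1 ψ :=
  qExpansion_add hφ.analyticAt hψ.analyticAt

theorem qExp_mul (hφ : QGood φ) (hψ : QGood ψ) :
    qExpansion 1 (φ * ψ) = qExpansion 1 φ * qExpansion 1 ψ :=
  qExpansion_mul hφ.analyticAt hψ.analyticAt

theorem qExp_neg (hφ : QGood φ) : qExpansion 1 (-φ) = -qExpansion 1 φ :=
  qExpansion_neg hφ.analyticAt

theorem qExp_sub (hφ : QGood φ) (hψ : QGood ψ) :
    qExpansion 1 (φ - ψ) = qExpansion 1 φ - qExpansion 1 ψ :=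
  qExpansion_sub hφ.analyticAt hψ.analyticAt

theorem qExp_smul (c : ℂ) (hφ : QGood φ) : qExpansion 1 (c • φ) = c • qExpansion 1 φ :=
  qExpansion_smul hφ.analyticAt c

theorem qExp_pow (hφ : QGood φ) (n : ℕ) : qExpansion 1 (φ ^ n) = qExpansion 1 φ ^ n := by
  induction n with
  | zero => simpa using qExpansion_one 1
  | succ n ih => rw [pow_succ, pow_succ, qExp_mul (hφ.pow n) hφ, ih]

theorem qExp_sum {ι : Type*} (s : Finset ι) (F : ι → ℍ → ℂ) (h : ∀ i ∈ s, QGood (F i)) :
    qExpansion 1 (∑ i ∈ s, F i) = ∑ i ∈ s, qExpansion 1 (F i) := by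
  classical
  induction s using Finset.induction_on with
  | empty => simpa using qExpansion_zero 1
  | insert a s ha ih =>
    rw [Finset.sum_insert ha, Finset.sum_insert ha,
      qExp_add (h a (Finset.mem_insert_self a s))
        (QGood.sum s F fun i hi => h i (Finset.mem_insert_of_mem hi)),
      ih fun i hi => h i (Finset.mem_insert_of_mem hi)]

theorem qExp_const (c : ℂ) : qExpansion 1 (fun _ : ℍ => c) = PowerSeries.C c := by
  have h : (fun _ : ℍ => c) = c • (1 : ℍ → ℂ) := by
    ext z
    simp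
  rw [h, qExp_smul c QGood.one, qExpansion_one]
  ext n
  simp [PowerSeries.coeff_C, PowerSeries.coeff_one]

theorem qExp_eq_zero_iff (hφ : QGood φ) : qExpansion 1 φ = 0 ↔ φ = 0 :=
  qExpansion_eq_zero_iff one_pos (by simpa using hφ.per) hφ.holo hφ.bdd

theorem qExp_injective (hφ : QGood φ) (hψ : QGood ψ) (h : qExpansion 1 φ = qExpansion 1 ψ) :
    φ = ψ := by
  have h0 : qExpansion 1 (φ - ψ) = 0 := by rw [qExp_sub hφ hψ, h, sub_self]
  exact sub_eq_zero.mp ((qExp_eq_zero_iff (hφ.sub hψ)).mp h0)

end qExp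

/-! ### Modular forms are good -/

section forms

variable {Γ : Subgroup (GL (Fin 2) ℝ)} {k : ℤ} {F : Type*} [FunLike F ℍ ℂ]

theorem qGood_of_modularForm [ModularFormClass F Γ k] (hΓ : (1 : ℝ) ∈ Γ.strictPeriods) (f : F) :
    QGood (f : ℍ → ℂ) where
  per := SlashInvariantFormClass.periodic_comp_ofComplex f hΓ
  holo := ModularFormClass.holo f
  bdd :=
    have : Fact (IsCusp OnePoint.infty Γ) := ⟨Γ.isCusp_of_mem_strictPeriods one_pos hΓ⟩
    ModularFormClass.bdd_at_infty f

end forms

end Fermat.Agent.S23.H40
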