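import Mathlib.Analysis.Complex.Basic
import Mathlib.Analysis.SpecificLimits.Basic

set_option autoImplicit false

namespace Fermat.Agent.S23.H40

open Finset Filter Topology

/-- Geometric sum bound: `∑_{m=1}^n (1/2)^m < 1`. -/
theorem sum_Icc_half_pow_lt_one (n : ℕ) : ∑ m ∈ Finset.Icc 1 n, (1 / 2 : ℝ) ^ m < 1 := by
  have h : ∀ n : ℕ, ∑ m ∈ Finset.Icc 1 n, (1 / 2 : ℝ) ^ m = 1 - (1 / 2 : ℝ) ^ n := by
    intro n
    induction n with
    | zero => simp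
    | succ k ih =>
      rw [Finset.sum_Icc_succ_top (by omega), ih]
      ring
  rw [h]
  have : (0 : ℝ) < (1 / 2 : ℝ) ^ n := by positivity
  linarith

/-- Root bound: a root `x` of the monic polynomial `X^n + ∑_{m=1}^n c_m X^{n-m}` with
`‖c_m‖ ≤ ε^m` satisfies `‖x‖ ≤ 2ε`. -/
theorem norm_le_of_monic_root {n : ℕ} (c : ℕ → ℂ) (x : ℂ) (ε : ℝ) (hε : 0 ≤ ε)
    (hc : ∀ m, 1 ≤ m → m ≤ n → ‖c m‖ ≤ ε ^ m)
    (hx : x ^ n + ∑ m ∈ Finset.Icc 1 n, c m * x ^ (n - m) = 0) : ‖x‖ ≤ 2 * ε := by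
  by_contra hlt
  rw [not_le] at hlt
  have hxpos : 0 < ‖x‖ := lt_of_le_of_lt (by positivity) hlt
  have hεx : ε ≤ ‖x‖ / 2 := by linarith
  have h1 : x ^ n = -∑ m ∈ Finset.Icc 1 n, c m * x ^ (n - m) := eq_neg_of_add_eq_zero_left hx
  have h2 : ‖x‖ ^ n ≤ ∑ m ∈ Finset.Icc 1 n, ‖x‖ ^ n * (1 / 2 : ℝ) ^ m := by
    calc ‖x‖ ^ n = ‖x ^ n‖ := (norm_pow x n).symm
      _ = ‖∑ m ∈ Finset.Icc 1 n, c m * x ^ (n - m)‖ := by rw [h1, norm_neg]
      _ ≤ ∑ m ∈ Finset.Icc 1 n, ‖c m * x ^ (n - m)‖ := norm_sum_le _ _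
      _ ≤ ∑ m ∈ Finset.Icc 1 n, ‖x‖ ^ n * (1 / 2 : ℝ) ^ m := by
        apply Finset.sum_le_sum
        intro m hm
        rw [Finset.mem_Icc] at hm
        rw [norm_mul, norm_pow]
        have h3 : ‖c m‖ ≤ (‖x‖ / 2) ^ m :=
          (hc m hm.1 hm.2).trans (pow_le_pow_left₀ hε hεx m)
        have h4 : ‖x‖ ^ n = ‖x‖ ^ m * ‖x‖ ^ (n - m) := by
          rw [← pow_add]; congr 1; omega
        calc ‖c m‖ * ‖x‖ ^ (n - m) ≤ (‖x‖ / 2) ^ m * ‖x‖ ^ (n - m) := by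
              gcongr
          _ = ‖x‖ ^ n * (1 / 2 : ℝ) ^ m := by
              rw [h4, div_pow, one_div, inv_pow]; ring
  rw [← Finset.mul_sum] at h2
  have h5 := sum_Icc_half_pow_lt_one n
  have h6 : 0 < ‖x‖ ^ n := by positivity
  nlinarith

/-- Filter form of the root bound: if the lower coefficients of a monic polynomial relation tend
to `0` along a filter, so does any family of roots. -/
theorem tendsto_zero_of_monic_root {ι : Type*} {l : Filter ι} {n : ℕ}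
    (c : ℕ → ι → ℂ) (φ : ι → ℂ)
    (hc : ∀ m, 1 ≤ m → m ≤ n → Tendsto (c m) l (𝓝 0))
    (hφ : ∀ i, φ i ^ n + ∑ m ∈ Finset.Icc 1 n, c m i * φ i ^ (n - m) = 0) :
    Tendsto φ l (𝓝 0) := by
  rw [Metric.tendsto_nhds]
  intro δ hδ
  have hδ4 : 0 < δ / 4 := by positivity
  have hev : ∀ᶠ i in l, ∀ m ∈ Finset.Icc 1 n, ‖c m i‖ ≤ (δ / 4) ^ m := by
    rw [Filter.eventually_all_finset]
    intro m hm
    rw [Finset.mem_Icc] at hm
    have h := hc m hm.1 hm.2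
    rw [Metric.tendsto_nhds] at h
    have hpos : 0 < (δ / 4) ^ m := by positivity
    filter_upwards [h _ hpos] with i hi
    rw [dist_zero_right] at hi
    exact hi.le
  filter_upwards [hev] with i hi
  rw [dist_zero_right]
  have := norm_le_of_monic_root (fun m => c m i) (φ i) (δ / 4) hδ4.le
    (fun m h1 h2 => hi m (Finset.mem_Icc.mpr ⟨h1, h2⟩)) (hφ i)
  linarith

end Fermat.Agent.S23.H40
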