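/-
S23 / P8 (helper40): function-level weight bookkeeping for the slash action of `SL(2,ℤ)`,
a cusp-form builder for `Γ₀(N)`, and stability of monic relations under slashing.
-/
import Mathlib.NumberTheory.ModularForms.QExpansion
import Mathlib.NumberTheory.ModularForms.CongruenceSubgroups
import Fermat.Agent.S23.H40.MonicRoot

set_option autoImplicit false

namespace Fermat.Agent.S23.H40

open UpperHalfPlane Function CongruenceSubgroup Matrix.SpecialLinearGroup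
open scoped Manifold MatrixGroups ModularForm

/-- `φ` is slash-invariant of weight `w` under the subgroup `Γ ≤ SL(2,ℤ)`. -/
def WInv (Γ : Subgroup SL(2, ℤ)) (w : ℤ) (φ : ℍ → ℂ) : Prop :=
  ∀ γ ∈ Γ, φ ∣[w] γ = φ

namespace WInv

variable {Γ Γ' : Subgroup SL(2, ℤ)} {w w₁ w₂ : ℤ} {φ ψ : ℍ → ℂ}

theorem mono (h : Γ' ≤ Γ) (hφ : WInv Γ w φ) : WInv Γ' w φ := fun γ hγ => hφ γ (h hγ)

theorem congr_weight (h : w₁ = w₂) (hφ : WInv Γ w₁ φ) : WInv Γ w₂ φ := h ▸ hφ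

theorem mul (hφ : WInv Γ w₁ φ) (hψ : WInv Γ w₂ ψ) : WInv Γ (w₁ + w₂) (φ * ψ) := fun γ hγ => by
  rw [ModularForm.mul_slash_SL2, hφ γ hγ, hψ γ hγ]

theorem add (hφ : WInv Γ w φ) (hψ : WInv Γ w ψ) : WInv Γ w (φ + ψ) := fun γ hγ => by
  rw [SlashAction.add_slash, hφ γ hγ, hψ γ hγ]

theorem smul (c : ℂ) (hφ : WInv Γ w φ) : WInv Γ w (c • φ) := fun γ hγ => by
  rw [ModularForm.SL_smul_slash, hφ γ hγ]

theorem one : WInv Γ 0 (1 : ℍ → ℂ) := fun γ _ => ModularForm.is_invariant_one γ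

theorem pow (hφ : WInv Γ w φ) (n : ℕ) : WInv Γ (n * w) (φ ^ n) := by
  induction n with
  | zero => simpa using (one (Γ := Γ))
  | succ n ih =>
    rw [pow_succ]
    exact (ih.mul hφ).congr_weight (by push_cast; ring)

theorem sum {ι : Type*} (s : Finset ι) (F : ι → ℍ → ℂ) (h : ∀ i ∈ s, WInv Γ w (F i)) :
    WInv Γ w (∑ i ∈ s, F i) := fun γ hγ => by
  rw [SlashAction.sum_slash]
  exact Finset.sum_congr rfl fun i hi => h i hi γ hγ

end WInv

section forms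

variable {k : ℤ} {F : Type*} [FunLike F ℍ ℂ]

/-- A slash-invariant form for (the image in `GL(2,ℝ)` of) `Γ ≤ SL(2,ℤ)` is `WInv Γ`. -/
theorem wInv_of_form (Γ : Subgroup SL(2, ℤ))
    [SlashInvariantFormClass F (Γ : Subgroup (GL (Fin 2) ℝ)) k] (f : F) :
    WInv Γ k (f : ℍ → ℂ) := fun γ hγ => by
  rw [ModularForm.SL_slash]
  exact SlashInvariantFormClass.slash_action_eq f _ (Subgroup.mem_map_of_mem _ hγ)

/-- A level-one slash-invariant form is invariant under all of `SL(2,ℤ)`. -/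
theorem wInv_of_levelOne [SlashInvariantFormClass F 𝒮ℒ k] (f : F) (Γ : Subgroup SL(2, ℤ)) :
    WInv Γ k (f : ℍ → ℂ) := fun γ _ => by
  rw [ModularForm.SL_slash]
  exact SlashInvariantFormClass.slash_action_eq f _ ⟨γ, rfl⟩

end forms

/-- **Cusp-form builder.** A holomorphic function on `ℍ` which is weight-`k` invariant under
`Γ₀(N)` and all of whose `SL(2,ℤ)`-translates vanish at `i∞` is a cusp form for `Γ₀(N)`. -/
theorem exists_cuspForm_of (N : ℕ) [NeZero N] (k : ℤ) (φ : ℍ → ℂ) (hφ : MDiff φ)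
    (hinv : WInv (Gamma0 N) k φ) (hz : ∀ δ : SL(2, ℤ), IsZeroAtImInfty (φ ∣[k] δ)) :
    ∃ f' : CuspForm (Gamma0 N) k, (f' : ℍ → ℂ) = φ := by
  refine ⟨{ toFun := φ
            slash_action_eq' := ?_
            holo' := hφ
            zero_at_cusps' := ?_ }, rfl⟩
  · rintro _ ⟨γ, hγ, rfl⟩
    exact hinv γ hγ
  · intro c hc
    have hc' : IsCusp c 𝒮ℒ :=
      (Subgroup.IsArithmetic.isCusp_iff_isCusp_SL2Z _).mp hc
    exact (OnePoint.isZeroAt_iff_forall_SL2Z hc').mpr fun γ _ => hz γ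

/-- A monic relation whose coefficients are level-one invariant of weight `m * k` is preserved
when the root is slashed (in weight `k`) by an element of `SL(2,ℤ)`. -/
theorem monic_rel_slash {n : ℕ} (k : ℤ) (c : ℕ → ℍ → ℂ) (φ : ℍ → ℂ)
    (hc : ∀ m, 1 ≤ m → m ≤ n → WInv ⊤ (m * k) (c m))
    (hrel : ∀ z, φ z ^ n + ∑ m ∈ Finset.Icc 1 n, c m z * φ z ^ (n - m) = 0) (δ : SL(2, ℤ)) :
    ∀ z, (φ ∣[k] δ) z ^ n + ∑ m ∈ Finset.Icc 1 n, c m z * (φ ∣[k] δ) z ^ (n - m) = 0 := by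
  intro z
  set d : ℂ := denom δ z ^ (-k) with hd
  have hφ : (φ ∣[k] δ) z = φ (δ • z) * d := ModularForm.SL_slash_apply (f := φ) (k := k) δ z
  have hcm : ∀ m ∈ Finset.Icc 1 n, c m z = c m (δ • z) * d ^ m := by
    intro m hm
    rw [Finset.mem_Icc] at hm
    have h1 := congrFun (hc m hm.1 hm.2 δ (Subgroup.mem_top δ)) z
    rw [ModularForm.SL_slash_apply] at h1
    rw [← h1, hd, ← zpow_natCast, ← zpow_mul]
    congr 2
    ring
  have key : (φ ∣[k] δ) z ^ n + ∑ m ∈ Finset.Icc 1 n, c m z * (φ ∣[k] δ) z ^ (n - m) =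
      d ^ n * (φ (δ • z) ^ n + ∑ m ∈ Finset.Icc 1 n, c m (δ • z) * φ (δ • z) ^ (n - m)) := by
    rw [hφ, mul_add, Finset.mul_sum, mul_pow, mul_comm (d ^ n)]
    congr 1
    apply Finset.sum_congr rfl
    intro m hm
    rw [hcm m hm]
    rw [Finset.mem_Icc] at hm
    have hsplit : d ^ n = d ^ m * d ^ (n - m) := by
      rw [← pow_add]; congr 1; omega
    rw [hsplit, mul_pow]
    ring
  rw [key, hrel (δ • z), mul_zero]

/-- If `φ` satisfies a monic relation whose (non-leading) coefficients are level-one invariant of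
weight `m * k` and vanish at `i∞`, then every `SL(2,ℤ)`-translate of `φ` vanishes at `i∞`. -/
theorem isZeroAtImInfty_slash_of_monic_rel {n : ℕ} (k : ℤ) (c : ℕ → ℍ → ℂ) (φ : ℍ → ℂ)
    (hc : ∀ m, 1 ≤ m → m ≤ n → WInv ⊤ (m * k) (c m))
    (hc0 : ∀ m, 1 ≤ m → m ≤ n → IsZeroAtImInfty (c m))
    (hrel : ∀ z, φ z ^ n + ∑ m ∈ Finset.Icc 1 n, c m z * φ z ^ (n - m) = 0) (δ : SL(2, ℤ)) :
    IsZeroAtImInfty (φ ∣[k] δ) :=
  tendsto_zero_of_monic_root c (φ ∣[k] δ) hc0 (monic_rel_slash k c φ hc hrel δ)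

end Fermat.Agent.S23.H40
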