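import Mathlib.Analysis.Complex.UpperHalfPlane.Manifold
import Mathlib.Analysis.Complex.RemovableSingularity
import Mathlib.Analysis.Complex.Convex
import Mathlib.Analysis.Analytic.IsolatedZeros
import Fermat.Agent.S23.H40.MonicRoot

set_option autoImplicit false

namespace Fermat.Agent.S23.H40

open Filter Topology UpperHalfPlane
open scoped Manifold

/-- Dividing a homogeneous monic relation `a^n + ∑ c_m a^(n-m) b^m = 0` by `b^n`. -/
theorem monic_rel_div {n : ℕ} (cs : ℕ → ℂ) (a b : ℂ) (hb : b ≠ 0)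
    (h : a ^ n + ∑ m ∈ Finset.Icc 1 n, cs m * a ^ (n - m) * b ^ m = 0) :
    (a / b) ^ n + ∑ m ∈ Finset.Icc 1 n, cs m * (a / b) ^ (n - m) = 0 := by
  have hbn : b ^ n ≠ 0 := pow_ne_zero n hb
  have key : (a / b) ^ n + ∑ m ∈ Finset.Icc 1 n, cs m * (a / b) ^ (n - m) =
      (a ^ n + ∑ m ∈ Finset.Icc 1 n, cs m * a ^ (n - m) * b ^ m) / b ^ n := by
    rw [add_div, Finset.sum_div, div_pow]
    congr 1
    apply Finset.sum_congr rfl
    intro m hm
    rw [Finset.mem_Icc] at hm
    have hsplit : b ^ n = b ^ (n - m) * b ^ m := by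
      rw [← pow_add]; congr 1; omega
    rw [hsplit, div_pow, mul_assoc, mul_div_assoc, mul_div_mul_right _ _ (pow_ne_zero m hb)]
  rw [key, h, zero_div]

/-- The non-vanishing locus of a nonzero holomorphic function on `ℍ` is dense. -/
theorem dense_ne_zero_of_mdiff {D : ℍ → ℂ} (hD : MDiff D) (hD0 : D ≠ 0) :
    Dense {z : ℍ | D z ≠ 0} := by
  intro z
  by_contra h
  rw [mem_closure_iff_frequently, not_frequently] at h
  apply hD0
  apply UpperHalfPlane.eq_zero_of_frequently hD (τ := z)
  have h' : ∀ᶠ w in 𝓝[≠] z, D w = 0 := by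
    apply eventually_nhdsWithin_of_eventually_nhds
    filter_upwards [h] with w hw
    simpa using hw
  exact h'.frequently

/-- Cancellation of a nonzero holomorphic factor for continuous functions on `ℍ`. -/
theorem eq_of_mul_eq_mul_of_mdiff {φ ψ D : ℍ → ℂ} (hφ : Continuous φ) (hψ : Continuous ψ)
    (hD : MDiff D) (hD0 : D ≠ 0) (h : ∀ z, φ z * D z = ψ z * D z) : φ = ψ :=
  Continuous.ext_on (dense_ne_zero_of_mdiff hD hD0) hφ hψ
    (fun z hz => mul_right_cancel₀ hz (h z))

/-- If a continuous function on `ℍ` vanishes wherever a nonzero holomorphic `D` does not vanish,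
then it vanishes identically. -/
theorem eq_zero_of_forall_ne_zero_of_mdiff {R D : ℍ → ℂ} (hR : Continuous R)
    (hD : MDiff D) (hD0 : D ≠ 0) (h : ∀ z, D z ≠ 0 → R z = 0) : ∀ z, R z = 0 := by
  have := Continuous.ext_on (dense_ne_zero_of_mdiff hD hD0) hR (continuous_const (y := (0 : ℂ)))
    (fun z hz => h z hz)
  intro z
  rw [this]

/-- **Holomorphic quotient.** If `F, D` are holomorphic on `ℍ`, `D ≠ 0`, and `F/D` formally
satisfies a monic polynomial relation with continuous coefficients, then `F/D` extends to a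
holomorphic function on `ℍ` (which still satisfies the relation). -/
theorem exists_mdifferentiable_quotient {n : ℕ} (hn : 0 < n) (F D : ℍ → ℂ)
    (hF : MDiff F) (hD : MDiff D) (hD0 : D ≠ 0)
    (c : ℕ → ℍ → ℂ) (hc : ∀ m, Continuous (c m))
    (hrel : ∀ z, F z ^ n + ∑ m ∈ Finset.Icc 1 n, c m z * F z ^ (n - m) * D z ^ m = 0) :
    ∃ φ : ℍ → ℂ, MDiff φ ∧ (∀ z, φ z * D z = F z) ∧
      ∀ z, φ z ^ n + ∑ m ∈ Finset.Icc 1 n, c m z * φ z ^ (n - m) = 0 := by
  classical
  set U : Set ℂ := {z | 0 < z.im} with hUdef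
  have hU : IsOpen U := isOpen_upperHalfPlaneSet
  set f : ℂ → ℂ := F ∘ ofComplex with hfdef
  set d : ℂ → ℂ := D ∘ ofComplex with hddef
  have hf : DifferentiableOn ℂ f U := mdifferentiable_iff.mp hF
  have hd : DifferentiableOn ℂ d U := mdifferentiable_iff.mp hD
  set q : ℂ → ℂ := fun z => f z / d z with hqdef
  set φc : ℂ → ℂ := fun z => limUnder (𝓝[≠] z) q with hφcdef
  -- `q` is differentiable where `d ≠ 0`
  have hqdiff : ∀ z ∈ U, d z ≠ 0 → DifferentiableAt ℂ q z := by
    intro z hz hdz
    exact (hf.differentiableAt (hU.mem_nhds hz)).div (hd.differentiableAt (hU.mem_nhds hz)) hdz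
  -- `φc = q` where `d ≠ 0`
  have hval : ∀ z ∈ U, d z ≠ 0 → φc z = q z := by
    intro z hz hdz
    exact ((hqdiff z hz hdz).continuousAt.tendsto.mono_left nhdsWithin_le_nhds).limUnder_eq
  -- the relation for `q`
  have hqrel : ∀ z ∈ U, d z ≠ 0 →
      q z ^ n + ∑ m ∈ Finset.Icc 1 n, c m (ofComplex z) * q z ^ (n - m) = 0 := by
    intro z _ hdz
    exact monic_rel_div (fun m => c m (ofComplex z)) (f z) (d z) hdz (hrel (ofComplex z))
  -- zeros of `d` are isolated
  have hiso : ∀ z₀ ∈ U, ∀ᶠ z in 𝓝[≠] z₀, d z ≠ 0 := by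
    intro z₀ hz₀
    have han : AnalyticOnNhd ℂ d U := hd.analyticOnNhd hU
    rcases (han z₀ hz₀).eventually_eq_zero_or_eventually_ne_zero with h0 | h1
    · exfalso
      apply hD0
      have hpre : IsPreconnected U :=
        (Complex.isConnected_of_upperHalfPlane subset_rfl (by grind)).isPreconnected
      have heq := han.eqOn_zero_of_preconnected_of_eventuallyEq_zero hpre hz₀ h0
      funext w
      have := heq w.im_pos
      simpa [hddef, ofComplex_apply] using this
    · exact h1
  -- local differentiability of `φc`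
  have key : ∀ z₀ ∈ U, DifferentiableAt ℂ φc z₀ := by
    intro z₀ hz₀
    have h1 : ∀ᶠ z in 𝓝 z₀, z ∈ U ∧ (z ≠ z₀ → d z ≠ 0) := by
      have h2 := hiso z₀ hz₀
      rw [eventually_nhdsWithin_iff] at h2
      filter_upwards [hU.mem_nhds hz₀, h2] with z hzU hz
      exact ⟨hzU, fun hne => hz hne⟩
    obtain ⟨r, hr, hball⟩ := Metric.eventually_nhds_iff_ball.mp h1
    set s : Set ℂ := Metric.closedBall z₀ (r / 2) with hsdef
    have hr2 : 0 < r / 2 := by positivity
    have hs_nhds : s ∈ 𝓝 z₀ := Metric.closedBall_mem_nhds z₀ hr2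
    have hs_sub : ∀ z ∈ s, z ∈ U ∧ (z ≠ z₀ → d z ≠ 0) := by
      intro z hz
      apply hball z
      rw [Metric.mem_ball]
      rw [hsdef, Metric.mem_closedBall] at hz
      linarith
    have hs_cpt : IsCompact s := isCompact_closedBall z₀ (r / 2)
    have hz₀s : z₀ ∈ s := Metric.mem_closedBall_self hr2.le
    -- differentiability of `q` on the punctured ball
    have hq_on : DifferentiableOn ℂ q (s \ {z₀}) := by
      intro z hz
      exact (hqdiff z (hs_sub z hz.1).1 ((hs_sub z hz.1).2 hz.2)).differentiableWithinAt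
    -- bounds on the coefficients
    have hcbd : ∀ m : ℕ, ∃ B : ℝ, ∀ z ∈ s, ‖c m (ofComplex z)‖ ≤ B := by
      intro m
      have hcont : ContinuousOn (fun z : ℂ => c m (ofComplex z)) s := by
        intro z hz
        have hzU : z ∈ U := (hs_sub z hz).1
        exact (((hc m).continuousAt).comp
          (mdifferentiableAt_ofComplex hzU).continuousAt).continuousWithinAt
      exact hs_cpt.exists_bound_of_continuousOn hcont
    choose B hB using hcbd
    have hB0 : ∀ m, 0 ≤ B m := fun m => (norm_nonneg _).trans (hB m z₀ hz₀s)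
    set ε : ℝ := 1 + ∑ m ∈ Finset.Icc 1 n, B m with hεdef
    have hε1 : 1 ≤ ε := by
      have : 0 ≤ ∑ m ∈ Finset.Icc 1 n, B m := Finset.sum_nonneg (fun m _ => hB0 m)
      linarith
    have hbdd : BddAbove (norm ∘ q '' (s \ {z₀})) := by
      refine ⟨2 * ε, ?_⟩
      rintro _ ⟨z, hz, rfl⟩
      have hzU := (hs_sub z hz.1).1
      have hdz := (hs_sub z hz.1).2 hz.2
      refine norm_le_of_monic_root (fun m => c m (ofComplex z)) (q z) ε (by linarith) ?_
        (hqrel z hzU hdz)
      intro m hm1 hmn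
      have h3 : B m ≤ ∑ m ∈ Finset.Icc 1 n, B m :=
        Finset.single_le_sum (fun i _ => hB0 i) (Finset.mem_Icc.mpr ⟨hm1, hmn⟩)
      calc ‖c m (ofComplex z)‖ ≤ B m := hB m z hz.1
        _ ≤ ε := by linarith
        _ ≤ ε ^ m := le_self_pow₀ hε1 (by omega)
    have hupd := Complex.differentiableOn_update_limUnder_of_bddAbove hs_nhds hq_on hbdd
    have heq : φc =ᶠ[𝓝 z₀] Function.update q z₀ (limUnder (𝓝[≠] z₀) q) := by
      filter_upwards [hs_nhds] with z hz
      by_cases hzz : z = z₀
      · subst hzz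
        simp [hφcdef]
      · rw [Function.update_of_ne hzz]
        exact hval z (hs_sub z hz).1 ((hs_sub z hz).2 hzz)
    exact (hupd.differentiableAt hs_nhds).congr_of_eventuallyEq heq
  -- assemble
  refine ⟨fun z => φc (z : ℂ), ?_, ?_, ?_⟩
  · rw [mdifferentiable_iff]
    intro z hz
    have h1 : DifferentiableAt ℂ φc z := key z hz
    have h2 : ((fun w : ℍ => φc (w : ℂ)) ∘ ofComplex) =ᶠ[𝓝 z] φc := by
      filter_upwards [eventuallyEq_coe_comp_ofComplex hz] with w hw
      simp only [Function.comp_apply, id_eq] at hw ⊢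
      rw [hw]
    exact (h1.congr_of_eventuallyEq h2).differentiableWithinAt
  · intro z
    have hfz : f (z : ℂ) = F z := by simp [hfdef, ofComplex_apply]
    have hdz : d (z : ℂ) = D z := by simp [hddef, ofComplex_apply]
    by_cases hDz : D z = 0
    · have h := hrel z
      have hsum : ∑ m ∈ Finset.Icc 1 n, c m z * F z ^ (n - m) * D z ^ m = 0 := by
        apply Finset.sum_eq_zero
        intro m hm
        rw [Finset.mem_Icc] at hm
        rw [hDz, zero_pow (by omega), mul_zero]
      rw [hsum, add_zero] at h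
      have hFz : F z = 0 := pow_eq_zero_iff (by omega) |>.mp h
      simp [hDz, hFz]
    · have hv := hval (z : ℂ) z.im_pos (by rwa [hdz])
      show φc (z : ℂ) * D z = F z
      rw [hv, hqdef]
      simp only
      rw [hfz, hdz, div_mul_cancel₀ _ hDz]
  · have hφcont : Continuous (fun z : ℍ => φc (z : ℂ)) := by
      rw [continuous_iff_continuousAt]
      intro z
      exact ((key (z : ℂ) z.im_pos).continuousAt).comp UpperHalfPlane.continuous_coe.continuousAt
    have hR : Continuous (fun z : ℍ => φc (z : ℂ) ^ n +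
        ∑ m ∈ Finset.Icc 1 n, c m z * φc (z : ℂ) ^ (n - m)) := by
      refine (hφcont.pow n).add (continuous_finsetSum _ (fun m _ => ?_))
      exact (hc m).mul (hφcont.pow _)
    refine eq_zero_of_forall_ne_zero_of_mdiff hR hD hD0 ?_
    intro z hDz
    have hfz : f (z : ℂ) = F z := by simp [hfdef, ofComplex_apply]
    have hdz : d (z : ℂ) = D z := by simp [hddef, ofComplex_apply]
    have hv := hval (z : ℂ) z.im_pos (by rwa [hdz])
    have h := hqrel (z : ℂ) z.im_pos (by rwa [hdz])
    rw [ofComplex_apply] at h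
    simp only
    rw [hv]
    exact h

end Fermat.Agent.S23.H40
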