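/-
S23 / P8 (helper40): abstract core of the conjugation theorem.

Given a cusp form `f` on `Γ₀(N)`, a "separating" modular form `g` on `Γ₀(N)` with `σ`-fixed
`q`-expansion, level-one forms `e m`, `l m`, `d m` and the three polynomial relations
(monic relation for `f`, Lagrange relation for `f * D`, expression of `D ≠ 0`), we construct a
cusp form on `Γ₀(N)` whose `q`-expansion is the `σ`-conjugate of that of `f`.
-/
import Fermat.Agent.S23.H18.LevelOne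
import Fermat.Agent.S23.H40.ConjQ
import Fermat.Agent.S23.H40.ConjSlash
import Fermat.Agent.S23.H40.HoloQuotient

set_option autoImplicit false

namespace Fermat.Agent.S23.H40

open UpperHalfPlane Function CongruenceSubgroup
open scoped Manifold MatrixGroups ModularForm

theorem one_mem_sp_SL : (1 : ℝ) ∈ (𝒮ℒ).strictPeriods := by simp

theorem one_mem_sp_Gamma0 (N : ℕ) :
    (1 : ℝ) ∈ ((Gamma0 N : Subgroup SL(2, ℤ)) : Subgroup (GL (Fin 2) ℝ)).strictPeriods := by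
  simp

/-- Function-level `σ`-conjugate of a level-one modular form. -/
theorem exists_conj_levelOne (σ : ℂ →+* ℂ) (K : ℤ) (a : ℍ → ℂ)
    (h : ∃ E : ModularForm 𝒮ℒ K, (E : ℍ → ℂ) = a) :
    QGood a ∧ ∃ a' : ℍ → ℂ, QGood a' ∧ WInv ⊤ K a' ∧
      qExpansion 1 a' = (qExpansion 1 a).map σ := by
  obtain ⟨E, rfl⟩ := h
  obtain ⟨E', hE'⟩ := H18.exists_conj σ E
  exact ⟨qGood_of_modularForm one_mem_sp_SL E, E', qGood_of_modularForm one_mem_sp_SL E',
    wInv_of_levelOne E' ⊤, hE'⟩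

/-- Function-level `σ`-conjugate of a level-one cusp form. -/
theorem exists_conj_levelOne_cusp (σ : ℂ →+* ℂ) (K : ℤ) (a : ℍ → ℂ)
    (h : ∃ E : CuspForm 𝒮ℒ K, (E : ℍ → ℂ) = a) :
    QGood a ∧ ∃ a' : ℍ → ℂ, QGood a' ∧ WInv ⊤ K a' ∧ IsZeroAtImInfty a' ∧
      qExpansion 1 a' = (qExpansion 1 a).map σ := by
  obtain ⟨E, rfl⟩ := h
  obtain ⟨E', hE'⟩ := H18.exists_conj_cuspForm σ E
  have : Fact (IsCusp OnePoint.infty 𝒮ℒ) :=
    ⟨Subgroup.isCusp_of_mem_strictPeriods one_pos one_mem_sp_SL⟩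
  exact ⟨qGood_of_modularForm one_mem_sp_SL E, E', qGood_of_modularForm one_mem_sp_SL E',
    wInv_of_levelOne E' ⊤, CuspFormClass.zero_at_infty E', hE'⟩

/-- `q`-expansion of a finite sum of products `c m * A m * B ^ n m * C ^ p m`. -/
theorem qExp_sum_mul4 (s : Finset ℕ) (c : ℕ → ℂ) (A : ℕ → ℍ → ℂ) (B C : ℍ → ℂ) (n p : ℕ → ℕ)
    (hA : ∀ m ∈ s, QGood (A m)) (hB : QGood B) (hC : QGood C) :
    QGood (fun z => ∑ m ∈ s, c m * A m z * B z ^ n m * C z ^ p m) ∧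
    qExpansion 1 (fun z => ∑ m ∈ s, c m * A m z * B z ^ n m * C z ^ p m) =
      ∑ m ∈ s, PowerSeries.C (c m) * qExpansion 1 (A m) * qExpansion 1 B ^ n m *
        qExpansion 1 C ^ p m := by
  have hfun : (fun z => ∑ m ∈ s, c m * A m z * B z ^ n m * C z ^ p m) =
      ∑ m ∈ s, (fun _ : ℍ => c m) * A m * B ^ n m * C ^ p m := by
    ext z
    simp [Finset.sum_apply]
  have hterm : ∀ m ∈ s, QGood ((fun _ : ℍ => c m) * A m * B ^ n m * C ^ p m) := fun m hm =>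
    (((QGood.const (c m)).mul (hA m hm)).mul (hB.pow _)).mul (hC.pow _)
  rw [hfun]
  refine ⟨QGood.sum s _ hterm, ?_⟩
  rw [qExp_sum s _ hterm]
  refine Finset.sum_congr rfl fun m hm => ?_
  rw [qExp_mul (((QGood.const (c m)).mul (hA m hm)).mul (hB.pow _)) (hC.pow _),
    qExp_mul ((QGood.const (c m)).mul (hA m hm)) (hB.pow _),
    qExp_mul (QGood.const (c m)) (hA m hm), qExp_pow hB, qExp_pow hC, qExp_const]

/-- `q`-expansion of a finite sum of products `c m * A m * B ^ n m`. -/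
theorem qExp_sum_mul3 (s : Finset ℕ) (c : ℕ → ℂ) (A : ℕ → ℍ → ℂ) (B : ℍ → ℂ) (n : ℕ → ℕ)
    (hA : ∀ m ∈ s, QGood (A m)) (hB : QGood B) :
    QGood (fun z => ∑ m ∈ s, c m * A m z * B z ^ n m) ∧
    qExpansion 1 (fun z => ∑ m ∈ s, c m * A m z * B z ^ n m) =
      ∑ m ∈ s, PowerSeries.C (c m) * qExpansion 1 (A m) * qExpansion 1 B ^ n m := by
  have h := qExp_sum_mul4 s c A B 1 n (fun _ => 0) hA hB QGood.one
  simpa using h

/-- **Abstract conjugation theorem.** -/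
theorem exists_conj_of_relations (N : ℕ) [NeZero N] (k w : ℤ) (σ : ℂ ≃+* ℂ) (μ : ℕ) (hμ : 0 < μ)
    (f : CuspForm (Gamma0 N) k) (g : ModularForm (Gamma0 N) w)
    (hg : ∀ n, σ ((qExpansion 1 g).coeff n) = (qExpansion 1 g).coeff n)
    (e l d : ℕ → ℍ → ℂ) (D : ℍ → ℂ)
    (he : ∀ m, 1 ≤ m → m ≤ μ → ∃ K : ℤ, K = m * k ∧ ∃ E : CuspForm 𝒮ℒ K, (E : ℍ → ℂ) = e m)
    (hl : ∀ m, m < μ → ∃ K : ℤ, K = k + m * w ∧ ∃ E : ModularForm 𝒮ℒ K, (E : ℍ → ℂ) = l m)
    (hd : ∀ m, m < μ → ∃ K : ℤ, K = m * w ∧ ∃ E : ModularForm 𝒮ℒ K, (E : ℍ → ℂ) = d m)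
    (hD0 : D ≠ 0)
    (rel1 : ∀ z, f z ^ μ + ∑ m ∈ Finset.Icc 1 μ, (-1 : ℂ) ^ m * e m z * f z ^ (μ - m) = 0)
    (rel2 : ∀ z, f z * D z = ∑ m ∈ Finset.range μ, (-1 : ℂ) ^ m * l m z * g z ^ (μ - 1 - m))
    (rel3 : ∀ z, D z = ∑ m ∈ Finset.range μ, (-1 : ℂ) ^ m * d m z * g z ^ (μ - 1 - m)) :
    ∃ f' : CuspForm (Gamma0 N) k,
      ∀ n, (qExpansion 1 f').coeff n = σ ((qExpansion 1 f).coeff n) := by
  classical
  set S : PowerSeries ℂ →+* PowerSeries ℂ := PowerSeries.map (σ : ℂ →+* ℂ) with hS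
  set c0 : ℕ → ℂ := fun m => (-1 : ℂ) ^ m with hc0
  have hSC : ∀ m, S (PowerSeries.C (c0 m)) = PowerSeries.C (c0 m) := by
    intro m
    simp [hS, hc0]
  -- goodness of the inputs
  have hfG : QGood (f : ℍ → ℂ) := qGood_of_modularForm (one_mem_sp_Gamma0 N) f
  have hgG : QGood (g : ℍ → ℂ) := qGood_of_modularForm (one_mem_sp_Gamma0 N) g
  have hSg : S (qExpansion 1 g) = qExpansion 1 g := by
    ext n
    rw [hS, PowerSeries.coeff_map]
    exact hg n
  -- conjugate families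
  have he' : ∀ m, ∃ a' : ℍ → ℂ, QGood a' ∧ (1 ≤ m → m ≤ μ → QGood (e m) ∧
      WInv ⊤ (m * k) a' ∧ IsZeroAtImInfty a' ∧ qExpansion 1 a' = S (qExpansion 1 (e m))) := by
    intro m
    by_cases hm : 1 ≤ m ∧ m ≤ μ
    · obtain ⟨K, rfl, hE⟩ := he m hm.1 hm.2
      obtain ⟨h1, a', h2, h3, h4, h5⟩ := exists_conj_levelOne_cusp (σ : ℂ →+* ℂ) _ _ hE
      exact ⟨a', h2, fun _ _ => ⟨h1, h3, h4, h5⟩⟩
    · exact ⟨0, QGood.zero, fun h1 h2 => absurd ⟨h1, h2⟩ hm⟩
  choose e' he'G he'P using he'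
  have hl' : ∀ m, ∃ a' : ℍ → ℂ, QGood a' ∧ (m < μ → QGood (l m) ∧
      WInv ⊤ (k + m * w) a' ∧ qExpansion 1 a' = S (qExpansion 1 (l m))) := by
    intro m
    by_cases hm : m < μ
    · obtain ⟨K, rfl, hE⟩ := hl m hm
      obtain ⟨h1, a', h2, h3, h5⟩ := exists_conj_levelOne (σ : ℂ →+* ℂ) _ _ hE
      exact ⟨a', h2, fun _ => ⟨h1, h3, h5⟩⟩
    · exact ⟨0, QGood.zero, fun h1 => absurd h1 hm⟩
  choose l' hl'G hl'P using hl'
  have hd' : ∀ m, ∃ a' : ℍ → ℂ, QGood a' ∧ (m < μ → QGood (d m) ∧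
      WInv ⊤ (m * w) a' ∧ qExpansion 1 a' = S (qExpansion 1 (d m))) := by
    intro m
    by_cases hm : m < μ
    · obtain ⟨K, rfl, hE⟩ := hd m hm
      obtain ⟨h1, a', h2, h3, h5⟩ := exists_conj_levelOne (σ : ℂ →+* ℂ) _ _ hE
      exact ⟨a', h2, fun _ => ⟨h1, h3, h5⟩⟩
    · exact ⟨0, QGood.zero, fun h1 => absurd h1 hm⟩
  choose d' hd'G hd'P using hd'
  -- the `q`-expansion identities
  set u := qExpansion 1 (f : ℍ → ℂ) with hu
  set γ := qExpansion 1 (g : ℍ → ℂ) with hγ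
  set δ := qExpansion 1 D with hδ
  have hD3 := qExp_sum_mul3 (Finset.range μ) c0 d g (fun m => μ - 1 - m)
    (fun m hm => (hd'P m (Finset.mem_range.mp hm)).1) hgG
  have hDfun : D = fun z => ∑ m ∈ Finset.range μ, c0 m * d m z * g z ^ (μ - 1 - m) :=
    funext rel3
  have hDG : QGood D := by rw [hDfun]; exact hD3.1
  have hQ3 : δ = ∑ m ∈ Finset.range μ, PowerSeries.C (c0 m) * qExpansion 1 (d m) *
      γ ^ (μ - 1 - m) := by
    rw [hδ, hDfun]; exact hD3.2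
  have hL3 := qExp_sum_mul3 (Finset.range μ) c0 l g (fun m => μ - 1 - m)
    (fun m hm => (hl'P m (Finset.mem_range.mp hm)).1) hgG
  have hQ2 : u * δ = ∑ m ∈ Finset.range μ, PowerSeries.C (c0 m) * qExpansion 1 (l m) *
      γ ^ (μ - 1 - m) := by
    rw [hu, hδ, ← qExp_mul hfG hDG, ← hL3.2]
    congr 1
    exact funext rel2
  have hE3 := qExp_sum_mul3 (Finset.Icc 1 μ) c0 e f (fun m => μ - m)
    (fun m hm => (he'P m (Finset.mem_Icc.mp hm).1 (Finset.mem_Icc.mp hm).2).1) hfG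
  have hQ1 : u ^ μ + ∑ m ∈ Finset.Icc 1 μ, PowerSeries.C (c0 m) * qExpansion 1 (e m) *
      u ^ (μ - m) = 0 := by
    have h1 : (f : ℍ → ℂ) ^ μ +
        (fun z => ∑ m ∈ Finset.Icc 1 μ, c0 m * e m z * f z ^ (μ - m)) = 0 := by
      ext z
      exact rel1 z
    have h2 := congrArg (qExpansion 1) h1
    rw [qExp_add (hfG.pow μ) hE3.1, qExp_pow hfG, hE3.2, qExpansion_zero] at h2
    exact h2
  have hδ0 : δ ≠ 0 := fun h => hD0 ((qExp_eq_zero_iff hDG).mp h)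
  have hSδ0 : S δ ≠ 0 := by
    intro h
    apply hδ0
    have hinj : Function.Injective S :=
      PowerSeries.map_injective (σ : ℂ →+* ℂ) σ.injective
    exact hinj (by rw [h, map_zero])
  -- apply `σ`
  have hS1 : S u ^ μ + ∑ m ∈ Finset.Icc 1 μ, PowerSeries.C (c0 m) * S (qExpansion 1 (e m)) *
      S u ^ (μ - m) = 0 := by
    have := congrArg S hQ1
    simpa only [map_add, map_pow, map_sum, map_mul, hSC, map_zero] using this
  have hS2 : S u * S δ = ∑ m ∈ Finset.range μ, PowerSeries.C (c0 m) * S (qExpansion 1 (l m)) *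
      γ ^ (μ - 1 - m) := by
    have := congrArg S hQ2
    simpa only [map_pow, map_sum, map_mul, hSC, hSg] using this
  have hS3 : S δ = ∑ m ∈ Finset.range μ, PowerSeries.C (c0 m) * S (qExpansion 1 (d m)) *
      γ ^ (μ - 1 - m) := by
    have := congrArg S hQ3
    simpa only [map_pow, map_sum, map_mul, hSC, hSg] using this
  -- the conjugated numerator and denominator
  set F : ℍ → ℂ := fun z => ∑ m ∈ Finset.range μ, c0 m * l' m z * g z ^ (μ - 1 - m) with hF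
  set D' : ℍ → ℂ := fun z => ∑ m ∈ Finset.range μ, c0 m * d' m z * g z ^ (μ - 1 - m) with hD'
  have hF3 := qExp_sum_mul3 (Finset.range μ) c0 l' g (fun m => μ - 1 - m)
    (fun m _ => hl'G m) hgG
  have hD'3 := qExp_sum_mul3 (Finset.range μ) c0 d' g (fun m => μ - 1 - m)
    (fun m _ => hd'G m) hgG
  have hFG : QGood F := hF3.1
  have hD'G : QGood D' := hD'3.1
  have hQF : qExpansion 1 F = S u * S δ := by
    rw [hS2, hF3.2]
    exact Finset.sum_congr rfl fun m hm => by rw [(hl'P m (Finset.mem_range.mp hm)).2.2]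
  have hQD' : qExpansion 1 D' = S δ := by
    rw [hS3, hD'3.2]
    exact Finset.sum_congr rfl fun m hm => by rw [(hd'P m (Finset.mem_range.mp hm)).2.2]
  have hD'0 : D' ≠ 0 := by
    intro h
    apply hSδ0
    rw [← hQD', h, qExpansion_zero]
  -- the monic relation for `F / D'`
  set cc : ℕ → ℍ → ℂ := fun m z => c0 m * e' m z with hcc
  have hΨ4 := qExp_sum_mul4 (Finset.Icc 1 μ) c0 e' F D' (fun m => μ - m) (fun m => m)
    (fun m _ => he'G m) hFG hD'G
  have hrel : ∀ z, F z ^ μ + ∑ m ∈ Finset.Icc 1 μ, cc m z * F z ^ (μ - m) * D' z ^ m = 0 := by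
    have hΨG : QGood (F ^ μ +
        fun z => ∑ m ∈ Finset.Icc 1 μ, c0 m * e' m z * F z ^ (μ - m) * D' z ^ m) :=
      (hFG.pow μ).add hΨ4.1
    have hΨ0 : qExpansion 1 (F ^ μ +
        fun z => ∑ m ∈ Finset.Icc 1 μ, c0 m * e' m z * F z ^ (μ - m) * D' z ^ m) = 0 := by
      rw [qExp_add (hFG.pow μ) hΨ4.1, qExp_pow hFG, hΨ4.2, hQF, hQD']
      have hterm : ∀ m ∈ Finset.Icc 1 μ,
          PowerSeries.C (c0 m) * qExpansion 1 (e' m) * (S u * S δ) ^ (μ - m) * S δ ^ m =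
            S δ ^ μ * (PowerSeries.C (c0 m) * S (qExpansion 1 (e m)) * S u ^ (μ - m)) := by
        intro m hm
        rw [Finset.mem_Icc] at hm
        rw [(he'P m hm.1 hm.2).2.2.2]
        have hsplit : S δ ^ μ = S δ ^ (μ - m) * S δ ^ m := by
          rw [← pow_add]; congr 1; omega
        rw [hsplit, mul_pow]
        ring
      rw [Finset.sum_congr rfl hterm, ← Finset.mul_sum, mul_pow, mul_comm (S u ^ μ), ← mul_add,
        hS1, mul_zero]
    have hΨ := (qExp_eq_zero_iff hΨG).mp hΨ0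
    intro z
    exact congrFun hΨ z
  have hcont : ∀ m, Continuous (cc m) := fun m =>
    continuous_const.mul (he'G m).holo.continuous
  obtain ⟨φ, hφ, hφD, hφrel⟩ :=
    exists_mdifferentiable_quotient hμ F D' hFG.holo hD'G.holo hD'0 cc hcont hrel
  -- invariance under `Γ₀(N)`
  set W : ℤ := ((μ - 1 : ℕ) : ℤ) * w with hW
  have hgW : WInv (Gamma0 N) w (g : ℍ → ℂ) := wInv_of_form (Gamma0 N) g
  have hFW : WInv (Gamma0 N) (k + W) F := by
    have hfun : F = ∑ m ∈ Finset.range μ, c0 m • (l' m * (g : ℍ → ℂ) ^ (μ - 1 - m)) := by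
      ext z
      simp [hF, Finset.sum_apply, mul_assoc]
    rw [hfun]
    refine WInv.sum _ _ fun m hm => WInv.smul _ ?_
    have hm' : m < μ := Finset.mem_range.mp hm
    refine (((hl'P m hm').2.1.mono le_top).mul (hgW.pow (μ - 1 - m))).congr_weight ?_
    rw [hW, Nat.cast_sub (by omega : m ≤ μ - 1)]
    ring
  have hD'W : WInv (Gamma0 N) W D' := by
    have hfun : D' = ∑ m ∈ Finset.range μ, c0 m • (d' m * (g : ℍ → ℂ) ^ (μ - 1 - m)) := by
      ext z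
      simp [hD', Finset.sum_apply, mul_assoc]
    rw [hfun]
    refine WInv.sum _ _ fun m hm => WInv.smul _ ?_
    have hm' : m < μ := Finset.mem_range.mp hm
    refine (((hd'P m hm').2.1.mono le_top).mul (hgW.pow (μ - 1 - m))).congr_weight ?_
    rw [hW, Nat.cast_sub (by omega : m ≤ μ - 1)]
    ring
  have hprod : F = φ * D' := funext fun z => (hφD z).symm
  have hinv : WInv (Gamma0 N) k φ := by
    intro γ' hγ'
    have h1 : (φ * D') ∣[k + W] γ' = φ ∣[k] γ' * D' ∣[W] γ' := ModularForm.mul_slash_SL2 k W γ' φ D'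
    rw [← hprod, hFW γ' hγ', hD'W γ' hγ'] at h1
    have hcontφ : Continuous (φ ∣[k] γ') := by
      rw [ModularForm.SL_slash]
      exact (hφ.slash k _).continuous
    refine eq_of_mul_eq_mul_of_mdiff hcontφ hφ.continuous hD'G.holo hD'0 fun z => ?_
    have h2 := congrFun h1 z
    rw [Pi.mul_apply] at h2
    rw [← h2, hφD z]
  -- vanishing at the cusps
  have hccW : ∀ m, 1 ≤ m → m ≤ μ → WInv ⊤ (m * k) (cc m) := by
    intro m h1 h2
    have : cc m = c0 m • e' m := by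
      ext z
      simp [hcc]
    rw [this]
    exact WInv.smul _ (he'P m h1 h2).2.1
  have hcc0 : ∀ m, 1 ≤ m → m ≤ μ → IsZeroAtImInfty (cc m) := by
    intro m h1 h2
    have hz : IsZeroAtImInfty (e' m) := (he'P m h1 h2).2.2.1
    have := Filter.Tendsto.const_mul (c0 m) hz
    simpa [IsZeroAtImInfty, Filter.ZeroAtFilter, hcc] using this
  have hzero : ∀ δ' : SL(2, ℤ), IsZeroAtImInfty (φ ∣[k] δ') :=
    isZeroAtImInfty_slash_of_monic_rel k cc φ hccW hcc0 hφrel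
  obtain ⟨f', hf'⟩ := exists_cuspForm_of N k φ hφ hinv hzero
  refine ⟨f', fun n => ?_⟩
  have hf'G : QGood (f' : ℍ → ℂ) := qGood_of_modularForm (one_mem_sp_Gamma0 N) f'
  have hmul : qExpansion 1 (f' : ℍ → ℂ) * S δ = S u * S δ := by
    rw [← hQD', ← qExp_mul hf'G hD'G, hf', ← hprod, hQF, hQD']
  have hfin : qExpansion 1 (f' : ℍ → ℂ) = S u := mul_right_cancel₀ hSδ0 hmul
  rw [hfin, hS, PowerSeries.coeff_map]
  rfl

end Fermat.Agent.S23.H40
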