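/-
S23 / P8 (helper40): the conjugation theorem for cusp forms on `Γ₀(N)`.

For every ring automorphism `σ` of `ℂ` and every cusp form `f` of weight `k` on `Γ₀(N)` there
is a cusp form of the same weight and level whose `q`-expansion is the `σ`-conjugate of that
of `f`.
-/
import Fermat.Agent.S23.H16.SymmTranslates
import Fermat.Agent.S23.H21.SepForm
import Fermat.Agent.S23.H40.ConjCore

set_option autoImplicit false

namespace Fermat.Agent.S23.H40

open UpperHalfPlane Function CongruenceSubgroup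
open scoped Manifold MatrixGroups ModularForm

/-- A ring automorphism of `ℂ` fixes the coefficients of a power series with bounded
denominators. -/
theorem ringEquiv_coeff_of_bddDenom (σ : ℂ ≃+* ℂ) {p : PowerSeries ℂ} (hp : BddDenom p) (n : ℕ) :
    σ (p.coeff n) = p.coeff n := by
  obtain ⟨M, hM, a, ha⟩ := hp
  have h1 : (M : ℂ) * p.coeff n = (a.coeff n : ℂ) := by
    have := congrArg (PowerSeries.coeff n) ha
    simpa using this
  have hM0 : (M : ℂ) ≠ 0 := by exact_mod_cast hM.ne'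
  have h2 : (M : ℂ) * σ (p.coeff n) = (a.coeff n : ℂ) := by
    have := congrArg σ h1
    simpa using this
  exact mul_left_cancel₀ hM0 (h2.trans h1.symm)

/-- Splitting off the `m = 0` term of a sum over `range (μ + 1)`. -/
theorem sum_range_succ_eq_add_sum_Icc {M : Type*} [AddCommMonoid M] (μ : ℕ) (a : ℕ → M) :
    ∑ m ∈ Finset.range (μ + 1), a m = a 0 + ∑ m ∈ Finset.Icc 1 μ, a m := by
  induction μ with
  | zero => simp
  | succ n ih => rw [Finset.sum_range_succ, ih, Finset.sum_Icc_succ_top (by omega), add_assoc]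

/-- **Conjugation theorem (P8).** -/
theorem exists_conj_cuspForm (N : ℕ) [NeZero N] (k : ℤ) (σ : ℂ ≃+* ℂ)
    (f : CuspForm (Gamma0 N) k) :
    ∃ f' : CuspForm (Gamma0 N) k,
      ∀ n, (qExpansion 1 f').coeff n = σ ((qExpansion 1 f).coeff n) := by
  obtain ⟨g, hgB, hgsep⟩ := H21.exists_separating N
  set μ : ℕ := Nat.card (𝒮ℒ ⧸ ((Gamma0 N : Subgroup (GL (Fin 2) ℝ)).subgroupOf 𝒮ℒ)) with hμ
  have hμpos : 0 < μ := Nat.card_pos
  refine exists_conj_of_relations N k 4 σ μ hμpos f g (ringEquiv_coeff_of_bddDenom σ hgB)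
    (fun m => H16.esymmFun 𝒮ℒ f m) (fun m => H16.lagrangeFun 𝒮ℒ f g m)
    (fun m => ((μ - m : ℕ) : ℂ) • H16.esymmFun 𝒮ℒ g m) (H16.discFun 𝒮ℒ g) ?_ ?_ ?_ ?_ ?_ ?_ ?_
  · intro m h1 _
    exact ⟨k * m, by ring, H16.esymmCuspForm 𝒮ℒ f (by omega : m ≠ 0), rfl⟩
  · intro m _
    exact ⟨k + 4 * m, by ring, H16.lagrangeForm 𝒮ℒ f g m, rfl⟩
  · intro m _
    exact ⟨4 * m, by ring, ((μ - m : ℕ) : ℂ) • H16.esymmForm 𝒮ℒ g m, rfl⟩
  · apply H16.discFun_ne_zero
    rintro h ⟨γ, rfl⟩ hγ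
    exact hgsep γ (fun hmem => hγ (Subgroup.mem_map_of_mem _ hmem))
  · intro z
    have h := H16.monic_relation 𝒮ℒ f z
    rw [sum_range_succ_eq_add_sum_Icc] at h
    simpa [H16.esymmFun_zero] using h
  · intro z
    exact H16.lagrange_relation 𝒮ℒ f g z
  · intro z
    rw [H16.disc_relation 𝒮ℒ g z]
    refine Finset.sum_congr rfl fun m _ => ?_
    simp only [Pi.smul_apply, smul_eq_mul]
    ring

end Fermat.Agent.S23.H40
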